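/-
Project S44 (Mazur–Ribet at `p`), abstract leaf [H0] NODE-SLOPE (helper4): THE SLOPE FORMULA AT A NODE
`u v = λ^m · unit` OF A NORMAL MODEL, modulo `p`.  Prefix `s44n_`.

`R` a noetherian integrally closed domain with fraction field `F` (in the application the local ring
of the two-component model at a supersingular point, or of a chart), `λ, u, v ∈ R`,
`u v = λ^m ε`, `ε ∈ Rˣ`; `P₁ ∋ u`, `P₂ ∋ v` the two vertical primes (the only primes of height one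
containing `λ`), `λ` a local generator of both (the special fibre is reduced).

* `s44n_monomial` : if `G ∈ Fˣ` has NO HORIZONTAL DIVISOR (`G` is a unit of `R_𝔮` at every prime `𝔮`
  of height one not containing `λ`), and `G = λ^{b₁}·unit` at `P₁`, `G = λ^{b₂}·unit` at `P₂`, then
  `G ^ m = λ^{m b₂} · u^{b₁ - b₂} · ω`, `ω ∈ Rˣ`.
  (Proof: the quotient has trivial divisor, hence is a unit by Krull `ssl_krull_unit`.  No UFD, no
  class group, no Weierstrass preparation.)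
* `s44n_slope` : if `Φ ∈ Fˣ` is a `p`-th power modulo vertical divisors (`ssl_PowModVert λ p Φ`: the
  horizontal divisor of `Φ` is divisible by `p`), then `Φ = e₀^p · G` with `G` as above.
* `s44n_slope_congr` : consequently, for ANY additive "order functions" `W₁ W₂ ν : F → ℤ`
  (`W_i` trivial on the units of `R_{P_i}`, `W_i λ = 1`; `ν` trivial on `Rˣ` and on `λ`, `ν u = 1` —
  in the application `ν` is the order at the node of the normalised reduction along the branch `P₂`)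
      `m · ν Φ ≡ W₁ Φ - W₂ Φ  (mod p)`.
-/
import Mathlib
import Fermat.Agent.SS.Local.Height1

set_option autoImplicit false
set_option linter.unusedSectionVars false
set_option linter.style.haveILetI false

namespace Fermat.Agent.S44

open Fermat.Agent.SS

variable {R : Type*} [CommRing R] [IsDomain R] [IsNoetherianRing R] [IsIntegrallyClosed R]
  {F : Type*} [Field F] [Algebra R F] [IsFractionRing R F]

/-- the datum of a node `u v = λ^m · unit` with reduced branches `P₁ ∋ u`, `P₂ ∋ v`. -/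
structure s44n_Node (lam u v : R) (m : ℕ) (P₁ P₂ : Ideal R) : Prop where
  prime₁ : P₁.IsPrime
  prime₂ : P₂.IsPrime
  height₁ : P₁.height = 1
  height₂ : P₂.height = 1
  lam_mem₁ : lam ∈ P₁
  lam_mem₂ : lam ∈ P₂
  gen₁ : ∀ z ∈ P₁, ∃ s : R, s ∉ P₁ ∧ lam ∣ s * z
  gen₂ : ∀ z ∈ P₂, ∃ s : R, s ∉ P₂ ∧ lam ∣ s * z
  vert : ∀ 𝔮 : Ideal R, 𝔮.IsPrime → 𝔮.height = 1 → lam ∈ 𝔮 → 𝔮 = P₁ ∨ 𝔮 = P₂
  u_not_mem₂ : u ∉ P₂
  v_not_mem₁ : v ∉ P₁
  mul_eq : ∃ ε : Rˣ, u * v = lam ^ m * (ε : R)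

section Node

variable {lam u v : R} {m : ℕ} {P₁ P₂ : Ideal R}

theorem s44n_lam_ne_zero (hN : s44n_Node lam u v m P₁ P₂) : lam ≠ 0 := by
  rintro rfl
  have h1 := hN.height₁
  -- `P₁` is generated locally by `0`: impossible for a prime of height one
  have hP : P₁ = ⊥ := by
    rw [eq_bot_iff]
    intro z hz
    obtain ⟨s, hs, hd⟩ := hN.gen₁ z hz
    rw [zero_dvd_iff] at hd
    rcases mul_eq_zero.mp hd with h | h
    · exact absurd (h ▸ P₁.zero_mem) hs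
    · rw [h]; exact Ideal.zero_mem _
  rw [hP, Ideal.height_bot] at h1
  exact zero_ne_one h1

theorem s44n_u_ne_zero (hN : s44n_Node lam u v m P₁ P₂) : u ≠ 0 := by
  rintro rfl
  exact hN.u_not_mem₂ P₂.zero_mem

theorem s44n_v_ne_zero (hN : s44n_Node lam u v m P₁ P₂) : v ≠ 0 := by
  rintro rfl
  exact hN.v_not_mem₁ P₁.zero_mem

/-- `u` lies in no horizontal prime. -/
theorem s44n_u_not_mem_horiz (hN : s44n_Node lam u v m P₁ P₂) {𝔮 : Ideal R} [h𝔮 : 𝔮.IsPrime]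
    (hlam : lam ∉ 𝔮) : u ∉ 𝔮 := by
  intro hu
  obtain ⟨ε, hε⟩ := hN.mul_eq
  have h1 : lam ^ m * (ε : R) ∈ 𝔮 := hε ▸ 𝔮.mul_mem_right v hu
  rcases h𝔮.mem_or_mem h1 with h | h
  · exact hlam (h𝔮.mem_of_pow_mem m h)
  · exact h𝔮.ne_top (Ideal.eq_top_of_isUnit_mem _ h ε.isUnit)

/-- `u / λ^m` is a unit at `P₁`. -/
theorem s44n_u_div_unitAt₁ (hN : s44n_Node lam u v m P₁ P₂) :
    haveI := hN.prime₁
    ssl_UnitAt F P₁ (algebraMap R F u / algebraMap R F lam ^ m) := by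
  haveI := hN.prime₁
  obtain ⟨ε, hε⟩ := hN.mul_eq
  have hv0 : algebraMap R F v ≠ 0 := ssl_algebraMap_ne_zero (s44n_v_ne_zero hN)
  have hl0 : algebraMap R F lam ≠ 0 := ssl_algebraMap_ne_zero (s44n_lam_ne_zero hN)
  have hεu : (ε : R) ∉ P₁ := fun h =>
    hN.prime₁.ne_top (Ideal.eq_top_of_isUnit_mem _ h ε.isUnit)
  have h1 : algebraMap R F u / algebraMap R F lam ^ m =
      algebraMap R F (ε : R) / algebraMap R F v := by
    have h2 := congrArg (algebraMap R F) hε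
    rw [map_mul, map_mul, map_pow] at h2
    rw [div_eq_div_iff (pow_ne_zero m hl0) hv0, h2, mul_comm]
  rw [h1]
  exact ssl_unitAt_div P₁ (ssl_unitAt_algebraMap P₁ hεu) (ssl_unitAt_algebraMap P₁ hN.v_not_mem₁)

/-- **the monomial lemma**: an element without horizontal divisor at a node is, up to an `m`-th
root, a monomial in `λ` and `u` times a unit. -/
theorem s44n_monomial (hN : s44n_Node lam u v m P₁ P₂) {G : F} (hG : G ≠ 0)
    (hhor : ∀ 𝔮 : Ideal R, ssl_Horiz lam 𝔮 → ssl_UnitAt F 𝔮 G) {b₁ b₂ : ℤ}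
    (h₁ : ssl_UnitAt F P₁ (G / algebraMap R F lam ^ b₁))
    (h₂ : ssl_UnitAt F P₂ (G / algebraMap R F lam ^ b₂)) :
    ∃ ω : Rˣ, G ^ m =
      algebraMap R F lam ^ ((m : ℤ) * b₂) * algebraMap R F u ^ (b₁ - b₂) *
        algebraMap R F (ω : R) := by
  haveI := hN.prime₁
  haveI := hN.prime₂
  have hl0 : algebraMap R F lam ≠ 0 := ssl_algebraMap_ne_zero (s44n_lam_ne_zero hN)
  have hu0 : algebraMap R F u ≠ 0 := ssl_algebraMap_ne_zero (s44n_u_ne_zero hN)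
  set Z : F := G ^ m / (algebraMap R F lam ^ ((m : ℤ) * b₂) * algebraMap R F u ^ (b₁ - b₂))
    with hZ
  have hden : algebraMap R F lam ^ ((m : ℤ) * b₂) * algebraMap R F u ^ (b₁ - b₂) ≠ 0 :=
    mul_ne_zero (zpow_ne_zero _ hl0) (zpow_ne_zero _ hu0)
  have hZ0 : Z ≠ 0 := div_ne_zero (pow_ne_zero m hG) hden
  have hunit : ∀ 𝔮 : Ideal R, 𝔮.IsPrime → 𝔮.height = 1 → ssl_UnitAt F 𝔮 Z := by
    intro 𝔮 h𝔮 h1
    haveI := h𝔮
    by_cases hlam : lam ∈ 𝔮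
    · rcases hN.vert 𝔮 h𝔮 h1 hlam with rfl | rfl
      · -- at `P₁`
        have hZ1 : Z = (G / algebraMap R F lam ^ b₁) ^ m /
            (algebraMap R F u / algebraMap R F lam ^ m) ^ (b₁ - b₂) := by
          rw [hZ, div_pow, div_zpow, ← zpow_natCast (algebraMap R F lam ^ b₁) m, ← zpow_mul,
            ← zpow_natCast (algebraMap R F lam) m, ← zpow_mul]
          have e1 : algebraMap R F lam ^ ((m : ℤ) * b₂) =
              algebraMap R F lam ^ (b₁ * (m : ℤ)) / algebraMap R F lam ^ ((m : ℤ) * (b₁ - b₂)) := by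
            rw [← zpow_sub₀ hl0]
            congr 1
            ring
          rw [e1]
          have h3 : algebraMap R F lam ^ (b₁ * (m : ℤ)) ≠ 0 := zpow_ne_zero _ hl0
          have h4 : algebraMap R F lam ^ ((m : ℤ) * (b₁ - b₂)) ≠ 0 := zpow_ne_zero _ hl0
          have h5 : algebraMap R F u ^ (b₁ - b₂) ≠ 0 := zpow_ne_zero _ hu0
          field_simp
        rw [hZ1]
        exact ssl_unitAt_div _ (ssl_unitAt_pow _ h₁ m) (ssl_unitAt_zpow _ (s44n_u_div_unitAt₁ hN) _)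
      · -- at `P₂`
        have hZ2 : Z = (G / algebraMap R F lam ^ b₂) ^ m / algebraMap R F u ^ (b₁ - b₂) := by
          rw [hZ, div_pow, ← zpow_natCast (algebraMap R F lam ^ b₂) m, ← zpow_mul,
            mul_comm b₂ (m : ℤ), div_div]
        rw [hZ2]
        exact ssl_unitAt_div _ (ssl_unitAt_pow _ h₂ m)
          (ssl_unitAt_zpow _ (ssl_unitAt_algebraMap _ hN.u_not_mem₂) _)
    · -- horizontal
      have hG𝔮 : ssl_UnitAt F 𝔮 G := hhor 𝔮 ⟨h𝔮, h1, hlam⟩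
      rw [hZ]
      exact ssl_unitAt_div _ (ssl_unitAt_pow _ hG𝔮 m)
        (ssl_unitAt_mul _ (ssl_unitAt_zpow _ (ssl_unitAt_algebraMap _ hlam) _)
          (ssl_unitAt_zpow _ (ssl_unitAt_algebraMap _ (s44n_u_not_mem_horiz hN hlam)) _))
  obtain ⟨ω, hω⟩ := ssl_krull_unit hZ0 hunit
  refine ⟨ω, ?_⟩
  rw [hω, hZ, mul_div_cancel₀ _ hden]

/-- **the slope formula at a node, multiplicative form**: a function whose horizontal divisor is
divisible by `p` is `e₀^p · G` with `G^m` a monomial in `λ`, `u` times a unit of `R`. -/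
theorem s44n_slope (hN : s44n_Node lam u v m P₁ P₂) (p : ℕ) {Φ : F} (hΦ : Φ ≠ 0)
    (hpow : ssl_PowModVert F lam p Φ) :
    ∃ (e₀ : F) (b₁ b₂ : ℤ) (ω : Rˣ), e₀ ≠ 0 ∧
      ssl_UnitAt F P₁ (Φ / e₀ ^ p / algebraMap R F lam ^ b₁) ∧
      ssl_UnitAt F P₂ (Φ / e₀ ^ p / algebraMap R F lam ^ b₂) ∧
      (Φ / e₀ ^ p) ^ m =
        algebraMap R F lam ^ ((m : ℤ) * b₂) * algebraMap R F u ^ (b₁ - b₂) *
          algebraMap R F (ω : R) := by
  haveI := hN.prime₁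
  haveI := hN.prime₂
  obtain ⟨e₀, he₀, hhor⟩ := hpow
  have hG : Φ / e₀ ^ p ≠ 0 := div_ne_zero hΦ (pow_ne_zero p he₀)
  obtain ⟨b₁, h₁⟩ := ssl_exists_zpow (F := F) P₁ hN.height₁ hN.lam_mem₁ hN.gen₁ hG
  obtain ⟨b₂, h₂⟩ := ssl_exists_zpow (F := F) P₂ hN.height₂ hN.lam_mem₂ hN.gen₂ hG
  obtain ⟨ω, hω⟩ := s44n_monomial hN hG hhor h₁ h₂
  exact ⟨e₀, b₁, b₂, ω, he₀, h₁, h₂, hω⟩

/-- **the slope formula at a node, modulo `p`**: `m · ν Φ ≡ W₁ Φ - W₂ Φ (mod p)` for additive order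
functions `W₁, W₂` (along the two branches) and `ν` (order at the node of the normalised reduction
along the branch `P₂`). -/
theorem s44n_slope_congr (hN : s44n_Node lam u v m P₁ P₂) (p : ℕ) {Φ : F} (hΦ : Φ ≠ 0)
    (hpow : ssl_PowModVert F lam p Φ) (W₁ W₂ ν : F → ℤ)
    (hW₁mul : ∀ a b : F, a ≠ 0 → b ≠ 0 → W₁ (a * b) = W₁ a + W₁ b)
    (hW₂mul : ∀ a b : F, a ≠ 0 → b ≠ 0 → W₂ (a * b) = W₂ a + W₂ b)
    (hνmul : ∀ a b : F, a ≠ 0 → b ≠ 0 → ν (a * b) = ν a + ν b)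
    (hW₁unit : ∀ z : F, ssl_UnitAt F P₁ z → W₁ z = 0)
    (hW₂unit : ∀ z : F, ssl_UnitAt F P₂ z → W₂ z = 0)
    (hW₁lam : W₁ (algebraMap R F lam) = 1) (hW₂lam : W₂ (algebraMap R F lam) = 1)
    (hνunit : ∀ ω : Rˣ, ν (algebraMap R F (ω : R)) = 0)
    (hνlam : ν (algebraMap R F lam) = 0) (hνu : ν (algebraMap R F u) = 1) :
    ((m : ℤ) * ν Φ) ≡ W₁ Φ - W₂ Φ [ZMOD (p : ℤ)] := by
  haveI := hN.prime₁
  haveI := hN.prime₂
  obtain ⟨e₀, b₁, b₂, ω, he₀, h₁, h₂, hω⟩ := s44n_slope hN p hΦ hpow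
  have hl0 : algebraMap R F lam ≠ 0 := ssl_algebraMap_ne_zero (s44n_lam_ne_zero hN)
  have hu0 : algebraMap R F u ≠ 0 := ssl_algebraMap_ne_zero (s44n_u_ne_zero hN)
  have hω0 : algebraMap R F (ω : R) ≠ 0 := ssl_algebraMap_ne_zero ω.ne_zero
  have hep : e₀ ^ p ≠ 0 := pow_ne_zero p he₀
  have hG : Φ / e₀ ^ p ≠ 0 := div_ne_zero hΦ hep
  -- additive functions: powers
  have hone : ∀ f : F → ℤ, (∀ a b : F, a ≠ 0 → b ≠ 0 → f (a * b) = f a + f b) → f 1 = 0 := by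
    intro f hf
    have := hf 1 1 one_ne_zero one_ne_zero
    rw [mul_one] at this
    linarith
  have hpowN : ∀ f : F → ℤ, (∀ a b : F, a ≠ 0 → b ≠ 0 → f (a * b) = f a + f b) →
      ∀ (a : F) (n : ℕ), a ≠ 0 → f (a ^ n) = n * f a := by
    intro f hf a n ha
    induction n with
    | zero => rw [pow_zero, hone f hf]; simp
    | succ k ih =>
      rw [pow_succ, hf _ _ (pow_ne_zero k ha) ha, ih]
      push_cast
      ring
  have hinv : ∀ f : F → ℤ, (∀ a b : F, a ≠ 0 → b ≠ 0 → f (a * b) = f a + f b) →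
      ∀ a : F, a ≠ 0 → f a⁻¹ = - f a := by
    intro f hf a ha
    have := hf a a⁻¹ ha (inv_ne_zero ha)
    rw [mul_inv_cancel₀ ha, hone f hf] at this
    linarith
  have hpowZ : ∀ f : F → ℤ, (∀ a b : F, a ≠ 0 → b ≠ 0 → f (a * b) = f a + f b) →
      ∀ (a : F) (n : ℤ), a ≠ 0 → f (a ^ n) = n * f a := by
    intro f hf a n ha
    obtain ⟨k, rfl | rfl⟩ := n.eq_nat_or_neg
    · rw [zpow_natCast, hpowN f hf a k ha]
    · rw [zpow_neg, zpow_natCast, hinv f hf _ (pow_ne_zero k ha), hpowN f hf a k ha]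
      ring
  have hdiv : ∀ f : F → ℤ, (∀ a b : F, a ≠ 0 → b ≠ 0 → f (a * b) = f a + f b) →
      ∀ a b : F, a ≠ 0 → b ≠ 0 → f (a / b) = f a - f b := by
    intro f hf a b ha hb
    rw [div_eq_mul_inv, hf a _ ha (inv_ne_zero hb), hinv f hf b hb]
    ring
  -- `W_i (Φ / e₀^p) = b_i`
  have hW₁G : W₁ (Φ / e₀ ^ p) = b₁ := by
    have h := hW₁unit _ h₁
    rw [hdiv W₁ hW₁mul _ _ hG (zpow_ne_zero _ hl0), hpowZ W₁ hW₁mul _ _ hl0, hW₁lam] at h
    linarith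
  have hW₂G : W₂ (Φ / e₀ ^ p) = b₂ := by
    have h := hW₂unit _ h₂
    rw [hdiv W₂ hW₂mul _ _ hG (zpow_ne_zero _ hl0), hpowZ W₂ hW₂mul _ _ hl0, hW₂lam] at h
    linarith
  have hW₁Φ : W₁ Φ = b₁ + p * W₁ e₀ := by
    have h := hdiv W₁ hW₁mul Φ (e₀ ^ p) hΦ hep
    rw [hW₁G, hpowN W₁ hW₁mul e₀ p he₀] at h
    linarith
  have hW₂Φ : W₂ Φ = b₂ + p * W₂ e₀ := by
    have h := hdiv W₂ hW₂mul Φ (e₀ ^ p) hΦ hep
    rw [hW₂G, hpowN W₂ hW₂mul e₀ p he₀] at h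
    linarith
  -- apply `ν` to the monomial identity
  have hνG : (m : ℤ) * ν (Φ / e₀ ^ p) = b₁ - b₂ := by
    have h := congrArg ν hω
    rw [hpowN ν hνmul _ m hG,
      hνmul _ _ (mul_ne_zero (zpow_ne_zero _ hl0) (zpow_ne_zero _ hu0)) hω0,
      hνmul _ _ (zpow_ne_zero _ hl0) (zpow_ne_zero _ hu0),
      hpowZ ν hνmul _ _ hl0, hpowZ ν hνmul _ _ hu0, hνlam, hνu, hνunit] at h
    linarith
  have hνΦ : ν Φ = ν (Φ / e₀ ^ p) + p * ν e₀ := by
    have h := hdiv ν hνmul Φ (e₀ ^ p) hΦ hep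
    rw [hpowN ν hνmul e₀ p he₀] at h
    linarith
  rw [hνΦ, hW₁Φ, hW₂Φ, mul_add, hνG, Int.modEq_iff_dvd]
  refine ⟨W₁ e₀ - W₂ e₀ - m * ν e₀, ?_⟩
  ring

end Node

end Fermat.Agent.S44
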